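import Fermat.Agent.ES.Galois
import Fermat.Agent.Lib.FF.ConstExtExtend
import Fermat.Agent.S24.Fibres

/-!
# S17, block WMW: the Galois action on `J₀(N)(ℚ̄)` has open stabilisers
-/

set_option autoImplicit false
set_option synthInstance.maxHeartbeats 400000

open AlgebraicCurve ModularCurve

namespace Fermat.Agent.S17Lib

open Fermat.Agent.S18Lib Fermat.Agent.S24Lib Fermat.Agent.ESLib Fermat.Agent.FFLib

/-- every place of the function field of `X₀(N)` is defined over a number field -/
theorem exists_level_place (N : ℕ) [NeZero N] (P : Place Qb (FB N)) :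
    ∃ L : IntermediateField ℚ Qb, FiniteDimensional ℚ L ∧
      ∀ σ : GQ, (∀ x ∈ L, σ x = x) →
        arithmeticGalois (modularFunctionFieldFull N) σ • P = P := by
  obtain ⟨x, hxc, hx⟩ := ce3_exists_only_pole (isFF_bar N) P
  obtain ⟨v, hv⟩ := ce3_exists_pole (isFF_bar N) hxc
  have hvP : v = P := by
    by_contra hne
    exact absurd (hx v hne) (not_le.2 hv)
  subst hvP
  obtain ⟨L, hL, h⟩ := exists_level_gal N x
  refine ⟨L, hL, fun σ hσ => ?_⟩
  set g : SemilinearAut Qb (FB N) := arithmeticGalois (modularFunctionFieldFull N) σ with hg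
  have h1 := SemilinearAut.ord_smul g v x
  have h2 : g • x = x := h σ hσ
  rw [h2] at h1
  by_contra hne
  have := hx (g • v) hne
  rw [h1] at this
  exact absurd this (not_le.2 hv)

/-- every divisor is defined over a number field -/
theorem exists_level_divisor (N : ℕ) [NeZero N] (D : Divisor Qb (FB N)) :
    ∃ L : IntermediateField ℚ Qb, FiniteDimensional ℚ L ∧
      ∀ σ : GQ, (∀ x ∈ L, σ x = x) →
        arithmeticGalois (modularFunctionFieldFull N) σ • D = D := by
  induction D using Finsupp.induction with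
  | zero => exact ⟨⊥, inferInstance, fun σ _ => smul_zero _⟩
  | single_add v n D _ _ ih =>
      obtain ⟨L₁, h₁, hL₁⟩ := exists_level_place N v
      obtain ⟨L₂, h₂, hL₂⟩ := ih
      refine ⟨L₁ ⊔ L₂, IntermediateField.finiteDimensional_sup L₁ L₂, fun σ hσ => ?_⟩
      rw [smul_add, SemilinearAut.smul_single,
        hL₁ σ fun a ha => hσ a (le_sup_left (a := L₁) ha),
        hL₂ σ fun a ha => hσ a (le_sup_right (b := L₂) ha)]

/-- every point of `J₀(N)(ℚ̄)` is defined over a number field -/
theorem exists_level_class (N : ℕ) [NeZero N] (y : JZero N) :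
    ∃ L : IntermediateField ℚ Qb, FiniteDimensional ℚ L ∧
      ∀ σ : GQ, (∀ x ∈ L, σ x = x) → σ • y = y := by
  obtain ⟨D, rfl⟩ := Pic0.mk_surjective y
  obtain ⟨L, hL, h⟩ := exists_level_divisor N (D : Divisor Qb (FB N))
  refine ⟨L, hL, fun σ hσ => ?_⟩
  rw [galois_smul_pic0_def, SemilinearAut.pic0_smul_mk]
  exact congrArg Pic0.mk (Subtype.ext (by rw [SemilinearAut.coe_degZeroSMulHom]; exact h σ hσ))

end Fermat.Agent.S17Lib
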