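import Fermat.Agent.S37.Final
import Fermat.Agent.S18.RiemannUpper
import Fermat.Agent.S18.KL

/-!
# S17, block WMW: inertia at `ℓ ∤ m N` fixes every `y` such that `τ y - y` is `m`-torsion
-/

set_option autoImplicit false
set_option synthInstance.maxHeartbeats 400000

open AlgebraicCurve ModularCurve CongruenceSubgroup

namespace Fermat.Agent.S17Lib

open Fermat.Agent.S18Lib Fermat.Agent.S24Lib Fermat.Agent.ESLib Fermat.Agent.S37Lib

theorem inertia_fix (N : ℕ) [NeZero N] {ℓ : ℕ} (hℓ : ℓ.Prime) (hℓN : ¬ ℓ ∣ N) (m : ℕ)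
    (hℓm : ¬ ℓ ∣ m) (A : ValuationSubring Qb) (hA : A.LiesOverPrime ℓ) (τ : GQ)
    (hτ : τ ∈ A.inertiaSubgroupIn ℚ) (y : JZero N) (hy : m • (τ • y - y) = 0) : τ • y = y := by
  haveI : Fact ℓ.Prime := ⟨hℓ⟩
  obtain ⟨ι, Φ, hΦ⟩ := exists_redFun N hℓN A hA
    (fun M _ h1 h2 c => Fermat.Agent.S18Lib.riemann_upper M h1 h2 A hA c)
  have hNF : NFHyp N A := nfHyp_of_redData (exists_redData N hℓN A hA)
  have hKL : KLHyp N A m := fun y₁ y₂ h₁ h₂ hne heq D hD =>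
    Fermat.Agent.S18Lib.kummer_lemma N hℓN A hA m hℓm y₁ y₂ h₁ h₂ hne heq D hD
  have h0 := K0_torsion hΦ hNF hKL (τ • y - y) (K0_inertia hΦ hNF τ hτ y) hy
  exact sub_eq_zero.1 h0

end Fermat.Agent.S17Lib
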