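import Fermat.Agent.S55.W.Top
import Fermat.Agent.S19.Lev
import Fermat.Agent.S17.WMW.Smooth
import Fermat.Agent.S17.WMW.Unram

/-!
# S17, block WMW: weak Mordell-Weil (`m = 3`) for `J₀(N)(ℚ)`, from divisibility of `J₀(N)(ℚ̄)`
-/

set_option autoImplicit false
set_option synthInstance.maxHeartbeats 400000
set_option linter.unusedSectionVars false
set_option linter.unusedVariables false
set_option linter.style.haveILetI false

open AlgebraicCurve ModularCurve

namespace Fermat.Agent.S17Lib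

open Fermat.Agent.S18Lib Fermat.Agent.ESLib Fermat.Agent.S55Lib

noncomputable section

variable (N : ℕ) [NeZero N]

/-- the `3`-torsion of `J₀(N)(ℚ̄)` -/
def T3 : AddSubgroup (JZero N) where
  carrier := {z | 3 • z = 0}
  zero_mem' := smul_zero 3
  add_mem' := fun {a b} ha hb => by
    show 3 • (a + b) = 0
    rw [nsmul_add, show 3 • a = 0 from ha, show 3 • b = 0 from hb, add_zero]
  neg_mem' := fun {a} ha => by
    show 3 • (-a) = 0
    rw [neg_nsmul, show 3 • a = 0 from ha, neg_zero]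

theorem WM_smul_nsmul (σ : ESLib.GQ) (n : ℕ) (z : JZero N) : σ • (n • z) = n • (σ • z) :=
  map_nsmul (DistribSMul.toAddMonoidHom (JZero N) σ) n z

theorem WM_smul_mem (σ : ESLib.GQ) {z : JZero N} (hz : z ∈ T3 N) : σ • z ∈ T3 N := by
  show 3 • (σ • z) = 0
  rw [← WM_smul_nsmul, show 3 • z = 0 from hz]
  exact smul_zero (A := JZero N) σ

instance : DistribMulAction ESLib.GQ (T3 N) where
  smul σ z := ⟨σ • (z : JZero N), WM_smul_mem N σ z.2⟩
  one_smul z := Subtype.ext (one_smul _ (z : JZero N))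
  mul_smul σ τ z := Subtype.ext (mul_smul σ τ (z : JZero N))
  smul_zero σ := Subtype.ext (smul_zero (A := JZero N) σ)
  smul_add σ a b := Subtype.ext (smul_add σ (a : JZero N) (b : JZero N))

theorem WM_coe_smul (σ : ESLib.GQ) (z : T3 N) : ((σ • z : T3 N) : JZero N) = σ • (z : JZero N) := rfl

instance WM_finite_T3 : Finite (T3 N) := by
  have h := Fermat.Agent.S19Lib.finite_torsion N 3 (by norm_num)
  refine Finite.of_injective
    (fun z : T3 N => (⟨(z : JZero N), by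
      rw [Submodule.mem_torsionBy_iff]
      have := z.2
      show ((3 : ℕ) : ℤ) • (z : JZero N) = 0
      rw [natCast_zsmul]
      exact this⟩ : Submodule.torsionBy ℤ (JZero N) ((3 : ℕ) : ℤ))) ?_
  intro a b hab
  exact Subtype.ext (congrArg (fun w : Submodule.torsionBy ℤ (JZero N) ((3 : ℕ) : ℤ) => (w : JZero N)) hab)

/-- the stabiliser of `y` and of all `3`-torsion points -/
def HH (y : JZero N) : Subgroup ESLib.GQ where
  carrier := {σ | σ • y = y ∧ ∀ z : JZero N, z ∈ T3 N → σ • z = z}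
  one_mem' := ⟨one_smul _ _, fun z _ => one_smul _ _⟩
  mul_mem' := fun {a b} ha hb => ⟨by rw [mul_smul, hb.1, ha.1],
    fun z hz => by rw [mul_smul, hb.2 z hz, ha.2 z hz]⟩
  inv_mem' := fun {a} ha => ⟨by rw [inv_smul_eq_iff, ha.1],
    fun z hz => by rw [inv_smul_eq_iff, ha.2 z hz]⟩

theorem HH_normal (y : JZero N) (hy : ∀ τ : ESLib.GQ, τ • y - y ∈ T3 N) : (HH N y).Normal := by
  constructor
  intro σ hσ τ
  have key : ∀ w : JZero N, σ • (τ⁻¹ • w) = τ⁻¹ • w → (τ * σ * τ⁻¹) • w = w := by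
    intro w hw
    rw [mul_smul, mul_smul, hw, smul_inv_smul]
  refine ⟨key y ?_, fun z hz => key z (hσ.2 _ (WM_smul_mem N _ hz))⟩
  have h1 : τ⁻¹ • y = y + (τ⁻¹ • y - y) := by abel
  rw [h1, smul_add, hσ.1, hσ.2 _ (hy τ⁻¹)]

/-- the set of primes `{3, N}` -/
def S3 (hN : N.Prime) : Finset Nat.Primes := {⟨3, Nat.prime_three⟩, ⟨N, hN⟩}

theorem HH_mem_levS (hN : N.Prime) (y : JZero N) (hy : ∀ τ : ESLib.GQ, τ • y - y ∈ T3 N) :
    HH N y ∈ (levS (S3 N hN)).mem := by
  haveI := HH_normal N y hy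
  obtain ⟨L₀, hL₀, h₀⟩ := exists_level_class N y
  choose Lz hLz hz using fun z : T3 N => exists_level_class N (z : JZero N)
  haveI := hLz
  haveI := hL₀
  have hfd : FiniteDimensional ℚ ((⨆ z, Lz z) ⊔ L₀ : IntermediateField ℚ Qbar) := by
    haveI : FiniteDimensional ℚ (⨆ z, Lz z : IntermediateField ℚ Qbar) :=
      IntermediateField.finiteDimensional_iSup_of_finite
    exact IntermediateField.finiteDimensional_sup _ _
  refine PL_mem_levS_of_le (S3 N hN) _ ((⨆ z, Lz z) ⊔ L₀) hfd ?_ ?_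
  · intro s hs
    have hs' := (IntermediateField.mem_fixingSubgroup_iff _ s).1 hs
    refine ⟨h₀ s fun x hx => hs' x (le_sup_right (a := ⨆ z, Lz z) hx), fun z hz' => ?_⟩
    exact hz ⟨z, hz'⟩ s fun x hx => hs' x ((le_iSup Lz ⟨z, hz'⟩).trans le_sup_left hx)
  · intro q hq A hA τ hτ
    have hq3 : (q : ℕ) ≠ 3 := by
      intro h
      apply hq
      have : q = ⟨3, Nat.prime_three⟩ := Subtype.ext h
      rw [this]
      simp [S3]
    have hqN : (q : ℕ) ≠ N := by
      intro h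
      apply hq
      have : q = ⟨N, hN⟩ := Subtype.ext h
      rw [this]
      simp [S3]
    have h1 : ¬ (q : ℕ) ∣ N := fun h => hqN ((Nat.prime_dvd_prime_iff_eq q.2 hN).1 h)
    have h2 : ¬ (q : ℕ) ∣ 3 := fun h => hq3 ((Nat.prime_dvd_prime_iff_eq q.2 Nat.prime_three).1 h)
    refine ⟨inertia_fix N q.2 h1 3 h2 A hA τ hτ y (hy τ), fun z hz' => ?_⟩
    refine inertia_fix N q.2 h1 3 h2 A hA τ hτ z ?_
    exact (T3 N).sub_mem (WM_smul_mem N τ hz') hz'

/-- the Kummer cocycle of `y` -/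
def kum (y : JZero N) (hy : ∀ τ : ESLib.GQ, τ • y - y ∈ T3 N) : ESLib.GQ → T3 N :=
  fun σ => ⟨σ • y - y, hy σ⟩

theorem kum_mem (hN : N.Prime) (y : JZero N) (hy : ∀ τ : ESLib.GQ, τ • y - y ∈ T3 N) :
    kum N y hy ∈ LZ1 (levS (S3 N hN)) (T3 N) := by
  refine ⟨?_, ?_⟩
  · intro g h
    apply Subtype.ext
    show (g * h) • y - y = g • (h • y - y) + (g • y - y)
    rw [mul_smul, smul_sub]
    abel
  · refine ⟨HH N y, HH_mem_levS N hN y hy, fun g s hs => ?_⟩
    apply Subtype.ext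
    show (g * s) • y - y = g • y - y
    rw [mul_smul, hs.1]

/-- there is one open normal subgroup fixing all `y` with `3 y` rational -/
theorem exists_uniform_level (hN : N.Prime) :
    ∃ U : Subgroup ESLib.GQ, U.FiniteIndex ∧
      ∀ y : JZero N, (∀ τ : ESLib.GQ, τ • y - y ∈ T3 N) → ∀ s ∈ U, s • y = y := by
  haveI : Fact (3 : ℕ).Prime := ⟨Nat.prime_three⟩
  have hpS : ExtCitation.pPrime 3 ∈ S3 N hN := by
    have : ExtCitation.pPrime 3 = (⟨3, Nat.prime_three⟩ : Nat.Primes) := rfl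
    rw [this]
    simp [S3]
  obtain ⟨Uμ, hUμ, hμ⟩ := PL_exists_level_mu (S3 N hN) 3 hpS
  have h0 : ∀ τ : ESLib.GQ, τ • (0 : JZero N) - 0 ∈ T3 N := fun τ => by
    rw [show τ • (0 : JZero N) = 0 from smul_zero (A := JZero N) τ, sub_zero]
    exact (T3 N).zero_mem
  obtain ⟨V, hV, hV1, hV2⟩ := (levS (S3 N hN)).directed _ (HH_mem_levS N hN 0 h0) _ hUμ
  obtain ⟨U, hU, -, hU2, -⟩ := G_levelU (p := 3) (S3 N hN) (by norm_num) hpS V hV
    (fun s hs => hμ s (hV2 hs))
  refine ⟨U, (levS (S3 N hN)).finiteIndex U hU, fun y hy s hs => ?_⟩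
  have h1 := hU2 (T3 N) (fun n => Subtype.ext n.2)
    (fun s hs n => Subtype.ext ((hV1 hs).2 _ n.2)) (kum N y hy) (kum_mem N hN y hy) s hs
  have h2 : s • y - y = 0 := congrArg (fun w : T3 N => (w : JZero N)) h1
  exact sub_eq_zero.1 h2

/-- **weak Mordell-Weil** for `m = 3`, from divisibility -/
theorem weak_mw (hN : N.Prime)
    (DIV : ∀ x : JZero N, ∃ y : JZero N, 3 • y = x) :
    (nsmulAddMonoidHom
      (α := ↥(FixedPoints.addSubgroup (AlgebraicClosure ℚ ≃ₐ[ℚ] AlgebraicClosure ℚ) (JZero N)))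
      3).range.FiniteIndex := by
  obtain ⟨U, hUf, hU⟩ := exists_uniform_level N hN
  set A := ↥(FixedPoints.addSubgroup (AlgebraicClosure ℚ ≃ₐ[ℚ] AlgebraicClosure ℚ) (JZero N))
    with hA
  choose Y hY using fun x : A => DIV (x : JZero N)
  have hYT : ∀ (x : A) (τ : ESLib.GQ), τ • Y x - Y x ∈ T3 N := by
    intro x τ
    show 3 • (τ • Y x - Y x) = 0
    rw [nsmul_sub, ← WM_smul_nsmul, hY x, sub_eq_zero]
    exact x.2 τ
  let Ψ : A → (ESLib.GQ ⧸ U → T3 N) := fun x q => kum N (Y x) (hYT x) q.out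
  have hΨ : ∀ x x' : A, Ψ x = Ψ x' → x - x' ∈ (nsmulAddMonoidHom (α := A) 3).range := by
    intro x x' hxx
    have hfix : ∀ σ : ESLib.GQ, σ • (Y x - Y x') = Y x - Y x' := by
      intro σ
      obtain ⟨s, hs, hσ⟩ : ∃ s ∈ U, σ = (QuotientGroup.mk σ : ESLib.GQ ⧸ U).out * s := by
        refine ⟨((QuotientGroup.mk σ : ESLib.GQ ⧸ U).out)⁻¹ * σ, ?_, by group⟩
        rw [← QuotientGroup.eq]
        exact QuotientGroup.out_eq' _
      have h1 := congrArg (fun w : T3 N => (w : JZero N))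
        (congrFun hxx (QuotientGroup.mk σ : ESLib.GQ ⧸ U))
      have h2 : (QuotientGroup.mk σ : ESLib.GQ ⧸ U).out • Y x - Y x
          = (QuotientGroup.mk σ : ESLib.GQ ⧸ U).out • Y x' - Y x' := h1
      have h3 : σ • Y x = (QuotientGroup.mk σ : ESLib.GQ ⧸ U).out • Y x := by
        conv_lhs => rw [hσ, mul_smul, hU (Y x) (hYT x) s hs]
      have h4 : σ • Y x' = (QuotientGroup.mk σ : ESLib.GQ ⧸ U).out • Y x' := by
        conv_lhs => rw [hσ, mul_smul, hU (Y x') (hYT x') s hs]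
      rw [smul_sub, h3, h4]
      have := sub_eq_sub_iff_add_eq_add.1 h2
      rw [sub_eq_sub_iff_add_eq_add, this, add_comm]
    refine ⟨⟨Y x - Y x', hfix⟩, ?_⟩
    apply Subtype.ext
    show 3 • (Y x - Y x') = (x : JZero N) - (x' : JZero N)
    rw [nsmul_sub, hY x, hY x']
  haveI : Finite (ESLib.GQ ⧸ U) := Subgroup.finite_quotient_of_finiteIndex
  haveI : Finite (A ⧸ (nsmulAddMonoidHom (α := A) 3).range) := by
    refine Finite.of_injective
      (fun q : A ⧸ (nsmulAddMonoidHom (α := A) 3).range => Ψ q.out) ?_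
    intro q q' hqq
    have h := hΨ _ _ hqq
    rw [← QuotientAddGroup.out_eq' q, ← QuotientAddGroup.out_eq' q']
    rw [QuotientAddGroup.eq]
    have h5 : -q.out + q'.out = -(q.out - q'.out) := by abel
    rw [h5]
    exact neg_mem h
  exact AddSubgroup.finiteIndex_of_finite_quotient

end

end Fermat.Agent.S17Lib
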