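import Mathlib

/-!
# S17, block WMW: abstract descent with `m = 3` from the approximate parallelogram law
-/

set_option autoImplicit false

namespace Fermat.Agent.S17Lib

theorem fg_of_parallelogram3 {G : Type*} [AddCommGroup G] {h : G → ℝ} {C : ℝ}
    (H₁ : (nsmulAddMonoidHom (α := G) 3).range.FiniteIndex) (H₂ : ∀ x, 0 ≤ h x)
    (H₃ : ∀ x y, |h (x + y) + h (x - y) - 2 * (h x + h y)| ≤ C) [Northcott h] :
    AddGroup.FG G := by
  have hC : 0 ≤ C := le_trans (abs_nonneg _) (H₃ 0 0)
  -- doubling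
  have h2 : ∀ x, 4 * h x - (h 0 + C) ≤ h (2 • x) := by
    intro x
    have := abs_le.1 (H₃ x x)
    rw [sub_self, ← two_nsmul] at this
    linarith [this.1]
  -- tripling
  have h3 : ∀ x, 9 * h x - (2 * h 0 + 3 * C) ≤ h (3 • x) := by
    intro x
    have e := abs_le.1 (H₃ (2 • x) x)
    have e1 : 2 • x + x = 3 • x := by rw [← succ_nsmul]
    have e2 : 2 • x - x = x := by rw [two_nsmul, add_sub_cancel_right]
    rw [e1, e2] at e
    linarith [e.1, h2 x]
  have ht : ∀ g x, h x ≤ 2 * h (g + x) + (2 * h (-g) + C) := by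
    intro g x
    have e := abs_le.1 (H₃ (g + x) (-g))
    have e1 : g + x + -g = x := by abel
    rw [e1] at e
    linarith [e.2, H₂ (g + x - -g)]
  exact AddCommGroup.fg_of_descent (n := 3) (a := 2) (b := 9) (c₀ := 2 * h 0 + 3 * C)
    (c := fun g => 2 * h (-g) + C) (by norm_num) (by norm_num) H₁ ht h3

end Fermat.Agent.S17Lib
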